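import Fermat.Agent.S14.H42.KummerSplit
import Fermat.Agent.S14.H32.IdealSeries
import Fermat.Agent.S14.H32.EulerFinite
import Fermat.Agent.S14.H81.ZetaLog

/-!
# S14 / package D3 (helper42): the Kummer splitting bound

`F` a number field containing a primitive `p`-th root of unity, `η` an integer of `F` which is
not a `p`-th power in `F`.  The primes `v` of `F` (prime to `p η`) modulo which `η` is a `p`-th
power split completely in `L = F(η^(1/p))`, a field of degree `p`; hence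
`∑_{v ∈ S} N(v)^(-s) ≤ (1/p) log (1/(s-1)) + C` uniformly in the finite set `S` of such primes.

Main statement: `Fermat.Agent.S14.H42.kummer_split_bound`.
-/

set_option autoImplicit false

namespace Fermat.Agent.S14.H42

open NumberField Polynomial Ideal IsDedekindDomain nonZeroDivisors
open Fermat.Agent.S14.H32

section Wrapper

variable {F : Type*} [Field F] [NumberField F]

theorem exists_primes_over_splitting (p : ℕ) [hp : Fact p.Prime] {ζ : F} (hζ : IsPrimitiveRoot ζ p)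
    (η : 𝓞 F) (hη : ∀ x : F, x ^ p ≠ (η : F))
    (L : Type*) [Field L] [NumberField L] [Algebra F L] [IsSplittingField F L (X ^ p - C (η : F))]
    {q : Ideal (𝓞 F)} (hq : q.IsPrime) (hq0 : q ≠ ⊥)
    (hpq : (p : 𝓞 F) ∉ q) (hηq : η ∉ q) {y : 𝓞 F} (hy : η - y ^ p ∈ q) :
    ∃ Q : Fin p → Ideal (𝓞 L), Function.Injective Q ∧
      ∀ j, (Q j).IsMaximal ∧ (Q j).LiesOver q ∧ absNorm (Q j) = absNorm q := by
  have hpp := hp.out
  have : NeZero p := ⟨hpp.ne_zero⟩
  have H : Irreducible (X ^ p - C (η : F)) := X_pow_sub_C_irreducible_of_prime hpp hη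
  set α : L := rootOfSplitsXPowSubC hpp.pos (η : F) L with hα_def
  have hα : α ^ p = algebraMap F L (η : F) := rootOfSplitsXPowSubC_pow (η : F) L
  have hαint : IsIntegral ℤ α := by
    apply IsIntegral.of_pow hpp.pos
    rw [hα]
    exact (RingOfIntegers.isIntegral_coe η).algebraMap
  let θ : 𝓞 L := ⟨α, hαint⟩
  have hζint : IsIntegral ℤ ζ := hζ.isIntegral hpp.pos
  let ζ' : 𝓞 F := ⟨ζ, hζint⟩
  have hζ' : IsPrimitiveRoot ζ' p := by
    refine IsPrimitiveRoot.of_map_of_injective (f := algebraMap (𝓞 F) F) ?_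
      RingOfIntegers.coe_injective
    exact hζ
  let σ : L ≃ₐ[F] L := (autEquivZmod H L hζ).symm (Multiplicative.ofAdd ((1 : ℕ) : ZMod p))
  have hσα : σ α = ζ • α := by
    have := autEquivZmod_symm_apply_natCast H L hα hζ 1
    rw [pow_one] at this
    exact this
  have hθ : θ ^ p = algebraMap (𝓞 F) (𝓞 L) η := by
    apply RingOfIntegers.ext
    show α ^ p = _
    rw [hα]
    rfl
  have hσ : σ • θ = algebraMap (𝓞 F) (𝓞 L) ζ' * θ := by
    apply RingOfIntegers.ext
    show σ α = algebraMap F L ζ * α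
    rw [hσα, Algebra.smul_def]
  have hdeg : Module.finrank F L = p :=
    finrank_of_isSplittingField_X_pow_sub_C ⟨ζ, (mem_primitiveRoots hpp.pos).mpr hζ⟩ H L
  exact exists_primes_over_aux hpp hζ' hθ hσ hdeg hq hq0 hpq hηq hy

/-- Bookkeeping: the primes of `L` above a finite set `S` of completely split primes. -/
theorem sum_split_le_primeSum (p : ℕ) [hp : Fact p.Prime] {ζ : F} (hζ : IsPrimitiveRoot ζ p)
    (η : 𝓞 F) (hη : ∀ x : F, x ^ p ≠ (η : F))
    (L : Type*) [Field L] [NumberField L] [Algebra F L] [IsSplittingField F L (X ^ p - C (η : F))]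
    {s : ℝ} (hs : 1 < s) (S : Finset (HeightOneSpectrum (𝓞 F)))
    (hS : ∀ v ∈ S, (p : 𝓞 F) ∉ v.asIdeal ∧ η ∉ v.asIdeal ∧ ∃ y : 𝓞 F, η - y ^ p ∈ v.asIdeal) :
    (p : ℝ) * ∑ v ∈ S, (absNorm v.asIdeal : ℝ) ^ (-s) ≤ H81.primeSum L s := by
  classical
  have h : ∀ v : {v // v ∈ S}, ∃ Q : Fin p → HeightOneSpectrum (𝓞 L), Function.Injective Q ∧
      ∀ j, (Q j).asIdeal.LiesOver v.1.asIdeal ∧
        absNorm (Q j).asIdeal = absNorm v.1.asIdeal := by
    rintro ⟨v, hv⟩
    obtain ⟨hpv, hηv, y, hy⟩ := hS v hv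
    obtain ⟨Q, hQinj, hQ⟩ := exists_primes_over_splitting p hζ η hη L v.isPrime v.ne_bot hpv hηv hy
    have hne : ∀ j, Q j ≠ ⊥ := by
      intro j h0
      have h1 := (hQ j).2.2
      rw [h0, Ideal.absNorm_bot] at h1
      exact v.ne_bot (Ideal.absNorm_eq_zero_iff.mp h1.symm)
    refine ⟨fun j => ⟨Q j, (hQ j).1.isPrime, hne j⟩, ?_, fun j => ⟨(hQ j).2.1, (hQ j).2.2⟩⟩
    intro i j hij
    exact hQinj (congrArg HeightOneSpectrum.asIdeal hij)
  choose Q hQinj hQ using h
  let g : {v // v ∈ S} × Fin p → HeightOneSpectrum (𝓞 L) := fun x => Q x.1 x.2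
  have hg : Function.Injective g := by
    rintro ⟨v, i⟩ ⟨w, j⟩ hvw
    have hvw' : Q v i = Q w j := hvw
    have h1 : v.1.asIdeal = w.1.asIdeal := by
      have h2 := (hQ v i).1
      have h3 := (hQ w j).1
      rw [Ideal.liesOver_iff] at h2 h3
      rw [h2, h3, hvw']
    have h4 : v = w := Subtype.ext (HeightOneSpectrum.ext h1)
    subst h4
    have h5 : i = j := hQinj v hvw'
    rw [h5]
  have hsum : (p : ℝ) * ∑ v ∈ S, (absNorm v.asIdeal : ℝ) ^ (-s) =
      ∑ Q' ∈ (Finset.univ : Finset ({v // v ∈ S} × Fin p)).image g,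
        (absNorm Q'.asIdeal : ℝ) ^ (-s) := by
    rw [Finset.sum_image (fun x _ y _ hxy => hg hxy), ← Finset.univ_product_univ,
      Finset.sum_product, Finset.mul_sum, ← Finset.sum_attach, Finset.univ_eq_attach]
    refine Finset.sum_congr rfl fun v _ => ?_
    have : ∀ j : Fin p, (absNorm (g (v, j)).asIdeal : ℝ) ^ (-s) =
        (absNorm v.1.asIdeal : ℝ) ^ (-s) := fun j => by
      show (absNorm (Q v j).asIdeal : ℝ) ^ (-s) = _
      rw [(hQ v j).2]
    rw [Finset.sum_congr rfl fun j _ => this j]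
    simp
  rw [hsum]
  exact (H81.summable_prime_rpow L hs).sum_le_tsum _ (fun _ _ => by positivity)

end Wrapper

/-- **D3 (Kummer splitting bound).** If `η` is not a `p`-th power in `F ∋ ζ_p`, the primes `v`
of `F` modulo which `η` is a `p`-th power have Dirichlet density at most `1/p`, in the form of
an explicit bound on partial sums. -/
theorem kummer_split_bound (F : Type*) [Field F] [NumberField F] (p : ℕ) [Fact p.Prime] (ζ : F)
    (hζ : IsPrimitiveRoot ζ p) (η : 𝓞 F) (hη : ∀ x : F, x ^ p ≠ (η : F)) :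
    ∃ C : ℝ, ∀ s : ℝ, 1 < s → s ≤ 2 → ∀ S : Finset (HeightOneSpectrum (𝓞 F)),
      (∀ v ∈ S, (p : 𝓞 F) ∉ v.asIdeal ∧ η ∉ v.asIdeal ∧ ∃ y : 𝓞 F, η - y ^ p ∈ v.asIdeal) →
      ∑ v ∈ S, nrm F s (prm v) ≤ (1 / p) * Real.log (1 / (s - 1)) + C := by
  let L := (X ^ p - C (η : F)).SplittingField
  have : FiniteDimensional F L := IsSplittingField.finiteDimensional L (X ^ p - C (η : F))
  have : NumberField L := NumberField.of_module_finite F L
  obtain ⟨C₀, hC₀⟩ := H81.exists_abs_primeSum_sub_le L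
  have hp0 : (0 : ℝ) < p := by exact_mod_cast (Fact.out : p.Prime).pos
  refine ⟨C₀ / p, fun s hs1 hs2 S hS => ?_⟩
  have h1 := sum_split_le_primeSum p hζ η hη L hs1 S hS
  have h2 := (abs_le.mp (hC₀ s hs1 hs2)).2
  have h3 : ∑ v ∈ S, nrm F s (prm v) = ∑ v ∈ S, (absNorm v.asIdeal : ℝ) ^ (-s) := rfl
  rw [h3]
  have h4 : (p : ℝ) * ∑ v ∈ S, (absNorm v.asIdeal : ℝ) ^ (-s) ≤ Real.log (1 / (s - 1)) + C₀ := by
    linarith
  have h5 : (1 / p : ℝ) * Real.log (1 / (s - 1)) + C₀ / p =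
      (Real.log (1 / (s - 1)) + C₀) / p := by ring
  rw [h5, le_div_iff₀ hp0]
  linarith

end Fermat.Agent.S14.H42
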