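import Fermat.Agent.S14.H42.Shapes
import Fermat.Agent.S14.H52.Split

/-!
# S14 / A5 (helper42): final assembly of the Galois side

`ExtCitation.ExtVanishingCts p` for `p ≥ 3` from the packages A1 (landed, helper52), A2, A3, A4
and KEY of the S14 skeleton, the latter four taken as hypotheses in the shapes of `Shapes.lean`.

If the kernel of the mod `p` cyclotomic character acts trivially on `V`, A1 splits the extension.
Otherwise A2 gives a Kummer generator `θ ∉ K = ℚ(ζ)` with `a = θ ^ p ∈ 𝓞 K`; A3 (primes `ℓ ≠ p`,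
from `unramified_outside`) and A4 (the prime `p`, from `locally_split`) give the hypotheses of
KEY, which makes `a` a `p`-th power in `K`, so `θ ∈ K`: contradiction.
-/

set_option autoImplicit false

namespace Fermat.Agent.S14.H42

open NumberField IsDedekindDomain ExtCitation ValuationSubring IntermediateField
open Fermat.Agent.S14.H70

/-- `Qb = ℚ̄`. -/
local notation "Qb" => AlgebraicClosure ℚ
/-- `G = Gal(ℚ̄/ℚ)`. -/
local notation "G" => (AlgebraicClosure ℚ ≃ₐ[ℚ] AlgebraicClosure ℚ)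

/-- Every nonzero prime of a number field contains a rational prime. -/
theorem exists_prime_natCast_mem {K : Type*} [Field K] [NumberField K]
    (v : HeightOneSpectrum (𝓞 K)) : ∃ ℓ : ℕ, ℓ.Prime ∧ (ℓ : 𝓞 K) ∈ v.asIdeal := by
  have key : ∀ n : ℕ, n ≠ 0 → (n : 𝓞 K) ∈ v.asIdeal → ∃ ℓ : ℕ, ℓ.Prime ∧ (ℓ : 𝓞 K) ∈ v.asIdeal := by
    intro n
    induction n using Nat.recOnMul with
    | zero => intro h; exact absurd rfl h
    | one =>
      intro _ h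
      exact absurd ((Ideal.eq_top_iff_one _).mpr (by simpa using h)) v.isPrime.ne_top
    | prime q hq => intro _ h; exact ⟨q, hq, h⟩
    | mul a b iha ihb =>
      intro hab h
      rw [Nat.cast_mul] at h
      rcases v.isPrime.mem_or_mem h with h | h
      · exact iha (left_ne_zero_of_mul hab) h
      · exact ihb (right_ne_zero_of_mul hab) h
  refine key (Ideal.absNorm v.asIdeal) ?_ (Ideal.absNorm_mem v.asIdeal)
  rw [Ne, Ideal.absNorm_eq_zero_iff]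
  exact v.ne_bot

section Galois

variable {p : ℕ} [Fact p.Prime]
variable {V : Type} [AddCommGroup V] [Module (ZMod p) V] [DistribMulAction G V]
  [SMulCommClass G (ZMod p) V]

omit [SMulCommClass G (ZMod p) V] in
/-- A decomposition-group element at `p` with trivial cyclotomic character acts trivially on
`V` (from `locally_split`). -/
theorem smul_eq_of_mem_decomposition {C : Submodule (ZMod p) V}
    (hadm : IsAdmissibleExtension p V C) (A : ValuationSubring Qb) (hA : A.LiesOverPrime p)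
    (σ : G) (hσ : σ ∈ A.decompositionSubgroup ℚ) (hχ : cycloExp p σ = 1) (x : V) :
    σ • x = x := by
  obtain ⟨C', hC', hcompl⟩ := hadm.locally_split A hA
  have hsub : ∀ y : V, σ • y - y ∈ C := by
    intro y
    have h := hadm.cyclo_quot σ y
    rwa [hχ, Nat.cast_one, one_smul] at h
  have hx : x ∈ C ⊔ C' := by rw [hcompl.sup_eq_top]; exact Submodule.mem_top
  obtain ⟨c, hc, c', hc', rfl⟩ := Submodule.mem_sup.mp hx
  have h1 : σ • c = c := hadm.fixed_sub σ c hc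
  have h2 : σ • c' = c' := by
    have hmem : σ • c' - c' ∈ C ⊓ C' :=
      ⟨hsub c', C'.sub_mem (hC' σ hσ c' hc') hc'⟩
    rw [hcompl.inf_eq_bot, Submodule.mem_bot, sub_eq_zero] at hmem
    exact hmem
  rw [smul_add, h1, h2]

/-- The contradiction from a Kummer generator (`A3 + A4 + KEY`). -/
theorem false_of_kummer_generator (hA3 : A3Shape p) (hA4 : A4Shape p)
    (hKEY : KeyShape p) {C : Submodule (ZMod p) V} (hadm : IsAdmissibleExtension p V C)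
    {ζ θ : Qb} (hζ : IsPrimitiveRoot ζ p) (hθ0 : θ ≠ 0) (hθint : IsIntegral ℤ θ)
    (hθK : θ ^ p ∈ ℚ⟮ζ⟯) (hθnK : θ ∉ ℚ⟮ζ⟯)
    (hfix : ∀ σ : G, (∀ v : V, σ • v = v) → σ θ = θ)
    (heig : ∀ (σ : G) (n : ℕ), σ ζ = ζ ^ n →
      ∃ γ ∈ ℚ⟮ζ⟯, σ (θ ^ p) = γ ^ p * (θ ^ p) ^ (n ^ 2)) : False := by
  have hpp : p.Prime := Fact.out
  have : NeZero p := ⟨hpp.ne_zero⟩
  have hG := H52.isGalois_Qb
  have hI : Algebra.IsIntegral ℚ Qb := inferInstance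
  have hζint : IsIntegral ℚ ζ := (hζ.isIntegral hpp.pos).tower_top
  have hfd : FiniteDimensional ℚ ℚ⟮ζ⟯ := IntermediateField.adjoin.finiteDimensional hζint
  have hNF : NumberField ℚ⟮ζ⟯ := { to_finiteDimensional := hfd }
  have hcyc : IsCyclotomicExtension {p} ℚ ℚ⟮ζ⟯ :=
    hζ.intermediateField_adjoin_isCyclotomicExtension ℚ
  have hζK : ζ ∈ ℚ⟮ζ⟯ := mem_adjoin_simple_self ℚ ζ
  -- the generator of `K` and the Kummer radicand
  set ζK : ℚ⟮ζ⟯ := ⟨ζ, hζK⟩ with hζK_def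
  have hζKprim : IsPrimitiveRoot ζK p := by
    refine IsPrimitiveRoot.of_map_of_injective (f := algebraMap ℚ⟮ζ⟯ Qb) ?_
      (algebraMap ℚ⟮ζ⟯ Qb).injective
    exact hζ
  set aK : ℚ⟮ζ⟯ := ⟨θ ^ p, hθK⟩ with haK_def
  have haKint : IsIntegral ℤ aK := by
    refine (isIntegral_algebraMap_iff (algebraMap ℚ⟮ζ⟯ Qb).injective).mp ?_
    exact hθint.pow p
  set a : 𝓞 ℚ⟮ζ⟯ := ⟨aK, haKint⟩ with ha_def
  have ha0 : a ≠ 0 := by
    intro h
    have h1 : ((a : ℚ⟮ζ⟯) : Qb) = 0 := by rw [h]; simp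
    exact pow_ne_zero p hθ0 h1
  have hθa : θ ^ p = ((a : ℚ⟮ζ⟯) : Qb) := rfl
  -- the eigen-relation
  have h_eig : ∀ (σ : ℚ⟮ζ⟯ ≃ₐ[ℚ] ℚ⟮ζ⟯) (n : ℕ), σ ζK = ζK ^ n →
      ∃ γ : ℚ⟮ζ⟯, σ (a : ℚ⟮ζ⟯) = γ ^ p * (a : ℚ⟮ζ⟯) ^ (n ^ 2) := by
    intro σ n hσ
    have hN : Normal ℚ Qb := hG.to_normal
    have hlift : ∀ x : ℚ⟮ζ⟯, σ.liftNormal Qb (x : Qb) = ((σ x : ℚ⟮ζ⟯) : Qb) :=
      fun x => AlgEquiv.liftNormal_commutes σ Qb x
    have h1 : σ.liftNormal Qb ζ = ζ ^ n := by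
      have := hlift ζK
      rw [hσ] at this
      exact this
    obtain ⟨γ, hγ, hγeq⟩ := heig (σ.liftNormal Qb) n h1
    refine ⟨⟨γ, hγ⟩, ?_⟩
    apply (algebraMap ℚ⟮ζ⟯ Qb).injective
    have h2 := hlift aK
    exact h2.symm.trans hγeq
  -- the valuation condition and the local condition
  have hIn : ∀ ℓ : ℕ, ℓ.Prime → ℓ ≠ p → ∀ A : ValuationSubring Qb, A.LiesOverPrime ℓ →
      ∀ σ ∈ A.inertiaSubgroupIn ℚ, σ θ = θ :=
    fun ℓ hℓ hℓp A hA σ hσ => hfix σ (hadm.unramified_outside ℓ hℓ hℓp A hA σ hσ)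
  have hD : ∀ A : ValuationSubring Qb, A.LiesOverPrime p →
      ∀ σ ∈ A.decompositionSubgroup ℚ, (∀ x ∈ ℚ⟮ζ⟯, σ x = x) → σ θ = θ := by
    intro A hA σ hσ hσK
    apply hfix σ
    have hχ : cycloExp p σ = 1 := (H52.cycloExp_eq_one_iff σ hζ).mpr (hσK ζ hζK)
    exact smul_eq_of_mem_decomposition hadm A hA σ hσ hχ
  have hA4p := fun v hv => hA4 ℚ⟮ζ⟯ ζ hζ hζK θ a ha0 hθa p hpp hD v hv
  have h_val : ∀ v : HeightOneSpectrum (𝓞 ℚ⟮ζ⟯), p ∣ cnt v a := by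
    intro v
    obtain ⟨ℓ, hℓ, hℓv⟩ := exists_prime_natCast_mem v
    by_cases hℓp : ℓ = p
    · subst hℓp
      exact (hA4p v hℓv).1
    · exact hA3 ℚ⟮ζ⟯ ζ hζ hζK θ a ha0 hθa ℓ hℓ (hIn ℓ hℓ hℓp) v hℓv
  have h_loc : ∀ v : HeightOneSpectrum (𝓞 ℚ⟮ζ⟯), (p : 𝓞 ℚ⟮ζ⟯) ∈ v.asIdeal →
      ∀ (x : ℚ⟮ζ⟯) (u : (𝓞 ℚ⟮ζ⟯)ˣ), ((u : 𝓞 ℚ⟮ζ⟯) : ℚ⟮ζ⟯) = (a : ℚ⟮ζ⟯) * x ^ p →
        ∃ y : 𝓞 ℚ⟮ζ⟯, (u : 𝓞 ℚ⟮ζ⟯) - y ^ p ∈ v.asIdeal ^ 3 :=
    fun v hv => (hA4p v hv).2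
  -- KEY
  obtain ⟨β, hβ⟩ := hKEY ℚ⟮ζ⟯ ζK hζKprim a ha0 h_eig h_val h_loc
  have hβ' : (β : Qb) ^ p = θ ^ p := by
    have := congrArg (algebraMap ℚ⟮ζ⟯ Qb) hβ
    rw [map_pow] at this
    exact this
  have hβ0 : (β : Qb) ≠ 0 := by
    intro h
    rw [h, zero_pow hpp.ne_zero] at hβ'
    exact pow_ne_zero p hθ0 hβ'.symm
  have hξ : (θ / (β : Qb)) ^ p = 1 := by
    rw [div_pow, hβ', div_self (pow_ne_zero p hθ0)]
  obtain ⟨k, -, hk⟩ := hζ.eq_pow_of_pow_eq_one hξ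
  apply hθnK
  have hθeq : θ = ζ ^ k * (β : Qb) := by
    rw [hk, div_mul_cancel₀ _ hβ0]
  rw [hθeq]
  exact mul_mem (pow_mem hζK k) β.2

/-- **A5.** `ExtVanishingCts p` from the skeleton packages A2, A3, A4 and KEY (the consumer
supplies `3 ≤ p` when building `A2Shape p` and `KeyShape p`; A1 is
`Fermat.Agent.S14.H52.splitsGlobally_of_trivial`). -/
theorem extVanishingCts_of_skeleton
    (hA2 : A2Shape p) (hA3 : A3Shape p) (hA4 : A4Shape p) (hKEY : KeyShape p) :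
    ExtCitation.ExtVanishingCts p := by
  intro V _ _ _ _ C hadm
  by_cases htriv : ∀ σ : G, cycloExp p σ = 1 → ∀ v : V, σ • v = v
  · exact H52.splitsGlobally_of_trivial C hadm.toIsAdmissibleExtension htriv
  · exfalso
    push Not at htriv
    obtain ⟨σ₁, hσ₁, v₁, hv₁⟩ := htriv
    obtain ⟨ζ, θ, hζ, hθ0, hθint, hθK, hθnK, hfix, heig⟩ := hA2 V C hadm ⟨σ₁, hσ₁, v₁, hv₁⟩
    exact false_of_kummer_generator hA3 hA4 hKEY hadm.toIsAdmissibleExtension hζ hθ0 hθint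
      hθK hθnK hfix heig

end Galois

end Fermat.Agent.S14.H42
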