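import Mathlib

/-!
# S14 / package D-b (helper42): Kummer splitting

`F` a number field containing a primitive `p`-th root of unity `ζ`, `L/F` the splitting field of
`X ^ p - a` (irreducible), `a = η` integral.  If `q` is a nonzero prime of `𝓞 F` with
`p ∉ q`, `η ∉ q` and `η ≡ y ^ p mod q`, then `q` splits completely in `L`: there are `p` distinct
primes of `𝓞 L` above `q`, each of absolute norm `N q`.
-/

set_option linter.unusedSectionVars false

namespace Fermat.Agent.S14.H42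

open NumberField Polynomial Ideal

section Roots

variable {R : Type*} [CommRing R] [IsDomain R]

/-- In a domain, `x ^ n - y ^ n = ∏_{j < n} (x - ζ ^ j * y)` for a primitive `n`-th root `ζ`. -/
theorem pow_sub_pow_eq_prod_range {ζ : R} {n : ℕ} (hn : 0 < n) (hζ : IsPrimitiveRoot ζ n)
    (x y : R) : x ^ n - y ^ n = ∏ j ∈ Finset.range n, (x - ζ ^ j * y) := by
  classical
  have himg : (Finset.range n).image (fun j => ζ ^ j) = nthRootsFinset n (1 : R) := by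
    apply Finset.eq_of_subset_of_card_le
    · intro z hz
      obtain ⟨j, -, rfl⟩ := Finset.mem_image.mp hz
      rw [mem_nthRootsFinset hn, ← pow_mul, mul_comm, pow_mul, hζ.pow_eq_one, one_pow]
    · rw [hζ.card_nthRootsFinset, Finset.card_image_of_injOn, Finset.card_range]
      intro i hi j hj hij
      exact hζ.pow_inj (Finset.mem_range.mp hi) (Finset.mem_range.mp hj) hij
  rw [hζ.pow_sub_pow_eq_prod_sub_mul x y hn, ← himg, Finset.prod_image]
  intro i hi j hj hij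
  exact hζ.pow_inj (Finset.mem_range.mp hi) (Finset.mem_range.mp hj) hij

/-- For a prime `p` and a primitive `p`-th root `ζ`, `ζ ^ i - ζ ^ j` divides `p` for
`i ≠ j`, `i, j < p`. -/
theorem pow_sub_pow_dvd_prime {ζ : R} {p : ℕ} (hp : p.Prime) (hζ : IsPrimitiveRoot ζ p)
    {i j : ℕ} (hi : i < p) (hj : j < p) (hij : i ≠ j) : (ζ ^ i - ζ ^ j) ∣ (p : R) := by
  wlog hlt : j < i generalizing i j
  · have h := this hj hi (Ne.symm hij) (lt_of_le_of_ne (not_lt.mp hlt) hij)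
    rw [← neg_sub] at h
    exact (neg_dvd).mp h
  obtain ⟨k, rfl⟩ : ∃ k, i = j + k := ⟨i - j, by omega⟩
  have hk0 : k ≠ 0 := by omega
  have hkp : k < p := by omega
  have hprim : IsPrimitiveRoot (ζ ^ k) p :=
    hζ.pow_of_coprime k ((Nat.Prime.coprime_iff_not_dvd hp).mpr
      (fun h => by have := Nat.le_of_dvd (Nat.pos_of_ne_zero hk0) h; omega)).symm
  obtain ⟨m, rfl⟩ : ∃ m, p = m + 1 := ⟨p - 1, by have := hp.pos; omega⟩
  have hprod := hprim.prod_one_sub_pow_eq_order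
  have hdvd : (1 - ζ ^ k) ∣ ((m + 1 : ℕ) : R) := by
    have h0 : (0 : ℕ) ∈ Finset.range m := Finset.mem_range.mpr (by omega)
    have := Finset.dvd_prod_of_mem (fun k' => (1 - (ζ ^ k) ^ (k' + 1))) h0
    simp only [zero_add, pow_one] at this
    rw [hprod] at this
    simpa using this
  have hunit : IsUnit (ζ ^ j) := (hζ.isUnit (by omega)).pow j
  have : ζ ^ (j + k) - ζ ^ j = ζ ^ j * (-(1 - ζ ^ k)) := by ring
  rw [this]
  exact (hunit.mul_left_dvd).mpr ((neg_dvd).mpr hdvd)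

end Roots

section Core

variable {F L : Type*} [Field F] [NumberField F] [Field L] [NumberField L] [Algebra F L]

/-- The ideal `q 𝓞_L + (θ - c)`. -/
noncomputable def kIdeal (q : Ideal (𝓞 F)) (θ : 𝓞 L) (c : 𝓞 F) : Ideal (𝓞 L) :=
  q.map (algebraMap (𝓞 F) (𝓞 L)) ⊔ Ideal.span {θ - algebraMap (𝓞 F) (𝓞 L) c}

theorem map_le_kIdeal (q : Ideal (𝓞 F)) (θ : 𝓞 L) (c : 𝓞 F) :
    q.map (algebraMap (𝓞 F) (𝓞 L)) ≤ kIdeal q θ c := le_sup_left

theorem sub_mem_kIdeal (q : Ideal (𝓞 F)) (θ : 𝓞 L) (c : 𝓞 F) :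
    θ - algebraMap (𝓞 F) (𝓞 L) c ∈ kIdeal q θ c :=
  Ideal.mem_sup_right (Ideal.subset_span rfl)

theorem kIdeal_sup_eq_top {q : Ideal (𝓞 F)} (hq : q.IsMaximal) (θ : 𝓞 L) {c c' : 𝓞 F}
    (h : c - c' ∉ q) : kIdeal q θ c ⊔ kIdeal q θ c' = ⊤ := by
  obtain ⟨r, a, ha, hra⟩ := hq.exists_inv h
  rw [Ideal.eq_top_iff_one]
  have h1 : (1 : 𝓞 L) = algebraMap (𝓞 F) (𝓞 L) r *
      ((θ - algebraMap (𝓞 F) (𝓞 L) c') - (θ - algebraMap (𝓞 F) (𝓞 L) c))
      + algebraMap (𝓞 F) (𝓞 L) a := by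
    have := congrArg (algebraMap (𝓞 F) (𝓞 L)) hra
    simp only [map_add, map_mul, map_sub, map_one] at this
    rw [← this]; ring
  rw [h1]
  refine Ideal.add_mem _ (Ideal.mul_mem_left _ _ (Ideal.sub_mem _ ?_ ?_)) ?_
  · exact Ideal.mem_sup_right (sub_mem_kIdeal q θ c')
  · exact Ideal.mem_sup_left (sub_mem_kIdeal q θ c)
  · exact Ideal.mem_sup_left (map_le_kIdeal q θ c (Ideal.mem_map_of_mem _ ha))

theorem smul_algebraMap (σ : L ≃ₐ[F] L) (x : 𝓞 F) :
    σ • (algebraMap (𝓞 F) (𝓞 L) x) = algebraMap (𝓞 F) (𝓞 L) x := by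
  apply RingOfIntegers.ext
  show σ (algebraMap (𝓞 L) L (algebraMap (𝓞 F) (𝓞 L) x)) = _
  rw [← IsScalarTower.algebraMap_apply (𝓞 F) (𝓞 L) L,
    IsScalarTower.algebraMap_apply (𝓞 F) F L, σ.commutes]
  rfl

theorem smul_mem_map (σ : L ≃ₐ[F] L) (q : Ideal (𝓞 F)) {a : 𝓞 L}
    (ha : a ∈ q.map (algebraMap (𝓞 F) (𝓞 L))) : σ • a ∈ q.map (algebraMap (𝓞 F) (𝓞 L)) := by
  let φ : 𝓞 L →+* 𝓞 L := MulSemiringAction.toRingHom (L ≃ₐ[F] L) (𝓞 L) σ
  have hφ : φ.comp (algebraMap (𝓞 F) (𝓞 L)) = algebraMap (𝓞 F) (𝓞 L) :=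
    RingHom.ext fun x => smul_algebraMap σ x
  have h1 : φ a ∈ (q.map (algebraMap (𝓞 F) (𝓞 L))).map φ := Ideal.mem_map_of_mem φ ha
  rwa [Ideal.map_map, hφ] at h1

theorem kIdeal_eq_top_of_mul {q : Ideal (𝓞 F)} {θ : 𝓞 L} {u : 𝓞 F} {σ : L ≃ₐ[F] L}
    (hσ : σ • θ = algebraMap (𝓞 F) (𝓞 L) u * θ) (c : 𝓞 F)
    (h : kIdeal q θ (u * c) = ⊤) : kIdeal q θ c = ⊤ := by
  rw [Ideal.eq_top_iff_one] at h ⊢
  obtain ⟨a, ha, b, hb, hab⟩ := Submodule.mem_sup.mp h
  obtain ⟨r, rfl⟩ := Ideal.mem_span_singleton'.mp hb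
  have h1 : (1 : 𝓞 L) = σ • a + (σ • r * algebraMap (𝓞 F) (𝓞 L) u) *
      (θ - algebraMap (𝓞 F) (𝓞 L) c) := by
    have := congrArg (fun x : 𝓞 L => σ • x) hab
    simp only [smul_add, smul_mul', smul_sub, smul_one, hσ, smul_algebraMap, map_mul] at this
    rw [← this]; ring
  rw [h1]
  exact Ideal.add_mem _ (map_le_kIdeal q θ c (smul_mem_map σ q ha))
    (Ideal.mul_mem_left _ _ (sub_mem_kIdeal q θ c))

theorem kIdeal_eq_top_of_pow_mul {q : Ideal (𝓞 F)} {θ : 𝓞 L} {u : 𝓞 F} {σ : L ≃ₐ[F] L}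
    (hσ : σ • θ = algebraMap (𝓞 F) (𝓞 L) u * θ) (n : ℕ) (c : 𝓞 F)
    (h : kIdeal q θ (u ^ n * c) = ⊤) : kIdeal q θ c = ⊤ := by
  induction n generalizing c with
  | zero => simpa using h
  | succ n ih =>
    apply kIdeal_eq_top_of_mul hσ c
    apply ih
    rwa [← mul_assoc, ← pow_succ]

end Core

section Main

variable {F L : Type*} [Field F] [NumberField F] [Field L] [NumberField L] [Algebra F L]

theorem map_ne_top {q : Ideal (𝓞 F)} (hq : q.IsMaximal) :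
    q.map (algebraMap (𝓞 F) (𝓞 L)) ≠ ⊤ := by
  have := hq
  obtain ⟨Q, hQ, hQq⟩ := Ideal.exists_ideal_over_maximal_of_isIntegral (S := 𝓞 L) q
    (by rw [RingOfIntegers.ker_algebraMap_eq_bot]; exact bot_le)
  intro h
  apply hQ.ne_top
  rw [eq_top_iff, ← h, Ideal.map_le_iff_le_comap, hQq]

theorem exists_primes_over_aux {p : ℕ} (hp : p.Prime) {ζ : 𝓞 F} (hζ : IsPrimitiveRoot ζ p)
    {θ : 𝓞 L} {η y : 𝓞 F} (hθ : θ ^ p = algebraMap (𝓞 F) (𝓞 L) η)
    {σ : L ≃ₐ[F] L} (hσ : σ • θ = algebraMap (𝓞 F) (𝓞 L) ζ * θ)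
    (hdeg : Module.finrank F L = p)
    {q : Ideal (𝓞 F)} (hq : q.IsPrime) (hq0 : q ≠ ⊥)
    (hpq : (p : 𝓞 F) ∉ q) (hηq : η ∉ q) (hy : η - y ^ p ∈ q) :
    ∃ Q : Fin p → Ideal (𝓞 L), Function.Injective Q ∧
      ∀ j, (Q j).IsMaximal ∧ (Q j).LiesOver q ∧ absNorm (Q j) = absNorm q := by
  classical
  have hqmax : q.IsMaximal := hq.isMaximal hq0
  have hyq : y ∉ q := fun h => hηq (by
    have : η = (η - y ^ p) + y ^ p := by ring
    rw [this]; exact q.add_mem hy (q.pow_mem_of_mem h p hp.pos))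
  -- comaximality
  have hcomax : ∀ i j : ℕ, i < p → j < p → i ≠ j →
      kIdeal q θ (ζ ^ i * y) ⊔ kIdeal q θ (ζ ^ j * y) = ⊤ := by
    intro i j hi hj hij
    apply kIdeal_sup_eq_top hqmax
    intro hmem
    have h1 : (ζ ^ i - ζ ^ j) * y ∈ q := by
      have : (ζ ^ i - ζ ^ j) * y = ζ ^ i * y - ζ ^ j * y := by ring
      rw [this]; exact hmem
    rcases hq.mem_or_mem h1 with h | h
    · exact hpq (Ideal.mem_of_dvd q (pow_sub_pow_dvd_prime hp hζ hi hj hij) h)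
    · exact hyq h
  -- properness
  have hproper : ∀ j : ℕ, j < p → kIdeal q θ (ζ ^ j * y) ≠ ⊤ := by
    intro j hj htop
    have h0 : kIdeal q θ y = ⊤ := kIdeal_eq_top_of_pow_mul hσ j y htop
    have hall : ∀ i, i ∈ Finset.range p → q.map (algebraMap (𝓞 F) (𝓞 L)) ⊔
        Ideal.span {θ - algebraMap (𝓞 F) (𝓞 L) (ζ ^ i * y)} = ⊤ := by
      intro i hi
      have hi' := Finset.mem_range.mp hi
      apply kIdeal_eq_top_of_pow_mul hσ (p - i) (ζ ^ i * y)
      rw [← mul_assoc, ← pow_add, Nat.sub_add_cancel hi'.le, hζ.pow_eq_one, one_mul]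
      exact h0
    have h1 := Ideal.sup_prod_eq_top hall
    rw [Ideal.prod_span_singleton] at h1
    have h2 : ∏ i ∈ Finset.range p, (θ - algebraMap (𝓞 F) (𝓞 L) (ζ ^ i * y)) =
        algebraMap (𝓞 F) (𝓞 L) (η - y ^ p) := by
      have hζL : IsPrimitiveRoot (algebraMap (𝓞 F) (𝓞 L) ζ) p :=
        hζ.map_of_injective (RingOfIntegers.algebraMap.injective F L)
      rw [map_sub, map_pow, ← hθ, pow_sub_pow_eq_prod_range hp.pos hζL]
      simp [map_mul, map_pow]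
    rw [h2] at h1
    apply map_ne_top (L := L) hqmax
    rw [← h1]
    symm
    apply sup_eq_left.mpr
    rw [Ideal.span_singleton_le_iff_mem]
    exact Ideal.mem_map_of_mem _ hy
  choose M hMmax hMle using fun j : Fin p => Ideal.exists_le_maximal _ (hproper j j.2)
  have hinj : Function.Injective M := by
    intro i j hij
    by_contra hne
    have hne' : (i : ℕ) ≠ j := fun h => hne (Fin.ext h)
    have hc := hcomax i j i.2 j.2 hne'
    have hle : kIdeal q θ (ζ ^ (i : ℕ) * y) ⊔ kIdeal q θ (ζ ^ (j : ℕ) * y) ≤ M i :=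
      sup_le (hMle i) (hij ▸ hMle j)
    exact (hMmax i).ne_top (top_le_iff.mp (hc ▸ hle))
  have hover : ∀ j, (M j).LiesOver q := by
    intro j
    rw [Ideal.liesOver_iff]
    refine hqmax.eq_of_le ?_ ?_
    · intro h
      apply (hMmax j).ne_top
      rw [Ideal.eq_top_iff_one]
      have h1 : (1 : 𝓞 F) ∈ Ideal.under (𝓞 F) (M j) := h ▸ Submodule.mem_top
      simpa [Ideal.under_def] using h1
    · intro x hx
      exact Ideal.mem_comap.mpr (hMle j (map_le_kIdeal _ _ _ (Ideal.mem_map_of_mem _ hx)))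
  have hf : ∀ j, absNorm (M j) = absNorm q ^ (q.inertiaDeg' (M j)) := fun j => by
    have := hover j
    exact absNorm_eq_pow_inertiaDeg'_of_liesOver (M j) q hq hq0
  have hfpos : ∀ j, 0 < q.inertiaDeg' (M j) := fun j => by
    have := hover j
    have := hqmax
    exact inertiaDeg'_pos q (M j)
  have hprod_le : q.map (algebraMap (𝓞 F) (𝓞 L)) ≤ ∏ j, M j := by
    rw [Ideal.prod_eq_iInf_of_pairwise_isCoprime]
    · simp only [Finset.mem_univ, iInf_pos]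
      exact le_iInf fun j => (map_le_kIdeal _ _ _).trans (hMle j)
    · intro i _ j _ hij
      exact (Ideal.isCoprime_iff_sup_eq).mpr ((hMmax i).coprime_of_ne (hMmax j) (hinj.ne hij))
  have hdvd : ∏ j, M j ∣ q.map (algebraMap (𝓞 F) (𝓞 L)) := Ideal.dvd_iff_le.mpr hprod_le
  have hN := map_dvd (Ideal.absNorm (S := 𝓞 L)) hdvd
  have hfr : Module.finrank (𝓞 F) (𝓞 L) = p := by
    rw [← hdeg]
    exact (IsFractionRing.finrank_eq (𝓞 F) F (𝓞 L) L).symm
  rw [map_prod, Ideal.absNorm_algebraMap, hfr] at hN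
  simp_rw [hf, Finset.prod_pow_eq_pow_sum] at hN
  have hNq : 1 < absNorm q := by
    have h0 : absNorm q ≠ 0 := by
      rw [Ne, Ideal.absNorm_eq_zero_iff]; exact hq0
    have h1 : absNorm q ≠ 1 := by
      rw [Ne, Ideal.absNorm_eq_one_iff]; exact hqmax.ne_top
    omega
  have hsum : ∑ j, q.inertiaDeg' (M j) ≤ p := (Nat.pow_dvd_pow_iff_le_right hNq).mp hN
  have hone : ∀ j, q.inertiaDeg' (M j) = 1 := by
    by_contra h
    push Not at h
    obtain ⟨j0, hj0⟩ := h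
    have hlt : p < ∑ j, q.inertiaDeg' (M j) := by
      calc p = ∑ _j : Fin p, 1 := by simp
        _ < ∑ j, q.inertiaDeg' (M j) :=
          Finset.sum_lt_sum (fun j _ => hfpos j)
            ⟨j0, Finset.mem_univ _, lt_of_le_of_ne (hfpos j0) (Ne.symm hj0)⟩
    omega
  exact ⟨M, hinj, fun j => ⟨hMmax j, hover j, by rw [hf, hone j, pow_one]⟩⟩

end Main

end Fermat.Agent.S14.H42
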