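import Mathlib
import Fermat.Prelude.Def_ExtCitation_AdmissibleExtension_v2
import Fermat.Agent.S14.H70.Defs

/-!
# S14 / A5 (helper42): the consumer shapes of the Galois-side packages

The statements of the packages A2, A3, A4 and KEY of the S14 skeleton (coordinator helper70), as
`Prop`-valued definitions, for a fixed prime `p`.  The final assembly
`Fermat.Agent.S14.H42.extVanishingCts_of_skeleton` (file `Assembly.lean`) derives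
`ExtCitation.ExtVanishingCts p` from them.
-/

set_option autoImplicit false

namespace Fermat.Agent.S14.H42

open NumberField IsDedekindDomain ExtCitation ValuationSubring IntermediateField
open Fermat.Agent.S14.H70

/-- `Qb = ℚ̄`. -/
local notation "Qb" => AlgebraicClosure ℚ
/-- `G = Gal(ℚ̄/ℚ)`. -/
local notation "G" => (AlgebraicClosure ℚ ≃ₐ[ℚ] AlgebraicClosure ℚ)

/-- Shape of package **A2** (Kummer generator). -/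
def A2Shape (p : ℕ) [Fact p.Prime] : Prop :=
  ∀ (V : Type) [AddCommGroup V] [Module (ZMod p) V] [DistribMulAction G V]
    [SMulCommClass G (ZMod p) V] (C : Submodule (ZMod p) V),
    IsAdmissibleExtensionCts p V C →
    (∃ σ : G, cycloExp p σ = 1 ∧ ∃ v : V, σ • v ≠ v) →
    ∃ (ζ θ : Qb), IsPrimitiveRoot ζ p ∧ θ ≠ 0 ∧ IsIntegral ℤ θ ∧ θ ^ p ∈ ℚ⟮ζ⟯ ∧ θ ∉ ℚ⟮ζ⟯ ∧
      (∀ σ : G, (∀ v : V, σ • v = v) → σ θ = θ) ∧
      (∀ (σ : G) (n : ℕ), σ ζ = ζ ^ n →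
        ∃ γ ∈ ℚ⟮ζ⟯, σ (θ ^ p) = γ ^ p * (θ ^ p) ^ (n ^ 2))

/-- Shape of package **A3** (unramified outside `p` ⟹ valuations divisible by `p`). -/
def A3Shape (p : ℕ) [Fact p.Prime] : Prop :=
  ∀ (K : IntermediateField ℚ Qb) [NumberField K]
    (ζ : Qb) (_ : IsPrimitiveRoot ζ p) (_ : ζ ∈ K) (θ : Qb) (a : 𝓞 K) (_ : a ≠ 0)
    (_ : θ ^ p = ((a : K) : Qb)) (ℓ : ℕ) (_ : ℓ.Prime)
    (_ : ∀ A : ValuationSubring Qb, A.LiesOverPrime ℓ → ∀ σ ∈ A.inertiaSubgroupIn ℚ, σ θ = θ)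
    (v : HeightOneSpectrum (𝓞 K)) (_ : (ℓ : 𝓞 K) ∈ v.asIdeal), p ∣ cnt v a

/-- Shape of package **A4** (decomposition groups at `p` fix `θ` ⟹ local condition). -/
def A4Shape (p : ℕ) [Fact p.Prime] : Prop :=
  ∀ (K : IntermediateField ℚ Qb) [NumberField K]
    (ζ : Qb) (_ : IsPrimitiveRoot ζ p) (_ : ζ ∈ K) (θ : Qb) (a : 𝓞 K) (_ : a ≠ 0)
    (_ : θ ^ p = ((a : K) : Qb)) (ℓ : ℕ) (_ : ℓ.Prime)
    (_ : ∀ A : ValuationSubring Qb, A.LiesOverPrime ℓ →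
      ∀ σ ∈ A.decompositionSubgroup ℚ, (∀ x ∈ K, σ x = x) → σ θ = θ)
    (v : HeightOneSpectrum (𝓞 K)) (_ : (ℓ : 𝓞 K) ∈ v.asIdeal),
    p ∣ cnt v a ∧ ∀ (x : K) (u : (𝓞 K)ˣ), ((u : 𝓞 K) : K) = (a : K) * x ^ p →
      ∃ y : 𝓞 K, (u : 𝓞 K) - y ^ p ∈ v.asIdeal ^ 3

/-- Shape of package **KEY**. -/
def KeyShape (p : ℕ) [Fact p.Prime] : Prop :=
  ∀ (K : Type) [Field K] [NumberField K] [IsCyclotomicExtension {p} ℚ K] (ζ : K)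
    (_ : IsPrimitiveRoot ζ p) (a : 𝓞 K) (_ : a ≠ 0)
    (_ : ∀ (σ : K ≃ₐ[ℚ] K) (n : ℕ), σ ζ = ζ ^ n →
      ∃ γ : K, σ (a : K) = γ ^ p * (a : K) ^ (n ^ 2))
    (_ : ∀ v : HeightOneSpectrum (𝓞 K), p ∣ cnt v a)
    (_ : ∀ v : HeightOneSpectrum (𝓞 K), (p : 𝓞 K) ∈ v.asIdeal →
      ∀ (x : K) (u : (𝓞 K)ˣ), ((u : 𝓞 K) : K) = (a : K) * x ^ p →
        ∃ y : 𝓞 K, (u : 𝓞 K) - y ^ p ∈ v.asIdeal ^ 3),
    ∃ β : K, β ^ p = (a : K)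

end Fermat.Agent.S14.H42
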